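import Mathlib
import Fermat.Agent.LT.T2.H291.OpsSpecT
import Fermat.Agent.LT.T8.H864.Local

/-!
# Row LT, tower T2, sub-leaf T2.27.20 `SubCommCircleCircleT291` (helper196)

OFF-MAIN.  On `LT/T2/H291/OpsSpecT.lean` (helper291@22c6ecc98, sha256 c8359c85), `LT/T2/Spec.lean`
(v3, b934629a), `LT/T2/SpecTau.lean` (4d2b0fc2), `LT/T1/Spec.lean` (e8ae48d6), `LT/H556/A0.lean`
(66d3374a) and the local elements of `LT/T8/H864/Local.lean` (helper864, 118083c7),
byte-identical copies.

`subCommCircleCircleT196 : SubCommCircleCircleT291 K`, UNCONDITIONAL: two `τ`-twisted circle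
means at real places commute on the cusp functions of the class `(𝔫, τ, r)`.

This is the `T`-form of T2.07.20; the proof follows the one of helper368
(`LT/T2/H368/CircleComm.lean`, whose elementary lemmas on `rotR`, `torR` are copied here with the
suffix `196`), with ONE change: for a non-trivial type `τ` the transposition is replaced by the
anti-involution `θ(x) = e xᵀ e`, `e = diag(1, -1)`, which fixes the rotations and the diagonal
matrices:

* `exists_rot_theta196` : for every real matrix `x` there is a rotation `κ` with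
  `θ(x) κ = κ x`;
* hence the `χ`-twisted left rotation average of a function with `ψ(m κ) = χ(κ) ψ(m)` is
  invariant under `θ` (the factors `χ(κ)`, `χ(κ)⁻¹` cancel);
* different places: the elements commute, Fubini on the square.
-/

set_option autoImplicit false

open MeasureTheory Set
open IsDedekindDomain NumberField
open scoped MatrixGroups

noncomputable section

namespace Fermat.Agent.LT.T2.H196

/-- The rotation of angle `θ / 2`, as a real matrix. -/
def rotR196 (θ : ℝ) : Matrix (Fin 2) (Fin 2) ℝ :=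
  !![Real.cos (θ / 2), -Real.sin (θ / 2); Real.sin (θ / 2), Real.cos (θ / 2)]

/-- `diag(e^{t/2}, e^{-t/2})`, as a real matrix. -/
def torR196 (t : ℝ) : Matrix (Fin 2) (Fin 2) ℝ :=
  !![Real.exp (t / 2), 0; 0, Real.exp (-(t / 2))]

theorem rotR196_add (a b : ℝ) : rotR196 (a + b) = rotR196 a * rotR196 b := by
  have h : (a + b) / 2 = a / 2 + b / 2 := by ring
  ext i j
  fin_cases i <;> fin_cases j <;>
    simp [rotR196, h, Real.cos_add, Real.sin_add, Matrix.mul_apply, Fin.sum_univ_two] <;> ring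

theorem rotR196_zero : rotR196 0 = 1 := by
  ext i j
  fin_cases i <;> fin_cases j <;> simp [rotR196]

theorem rotR196_two_pi : rotR196 (2 * Real.pi) = -1 := by
  have h : 2 * Real.pi / 2 = Real.pi := by ring
  ext i j
  fin_cases i <;> fin_cases j <;> simp [rotR196, h]

theorem rotR196_transpose (θ : ℝ) : (rotR196 θ).transpose = rotR196 (-θ) := by
  have h : -θ / 2 = -(θ / 2) := by ring
  ext i j
  fin_cases i <;> fin_cases j <;> simp [rotR196, h, Matrix.transpose_apply]

theorem rotR196_det (θ : ℝ) : (rotR196 θ).det = 1 := by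
  simp only [rotR196, Matrix.det_fin_two_of]
  have := Real.cos_sq_add_sin_sq (θ / 2)
  nlinarith [this]

theorem torR196_det (t : ℝ) : (torR196 t).det = 1 := by
  simp only [torR196, Matrix.det_fin_two_of]
  rw [mul_zero, sub_zero, ← Real.exp_add]
  simp

theorem torR196_transpose (t : ℝ) : (torR196 t).transpose = torR196 t := by
  ext i j
  fin_cases i <;> fin_cases j <;> simp [torR196, Matrix.transpose_apply]

/-- The rotation as an element of `GL₂(ℝ)`. -/
def rotG196 (θ : ℝ) : GL (Fin 2) ℝ :=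
  Matrix.GeneralLinearGroup.mkOfDetNeZero (rotR196 θ) (by rw [rotR196_det]; exact one_ne_zero)

/-- The torus element as an element of `GL₂(ℝ)`. -/
def torG196 (t : ℝ) : GL (Fin 2) ℝ :=
  Matrix.GeneralLinearGroup.mkOfDetNeZero (torR196 t) (by rw [torR196_det]; exact one_ne_zero)

@[simp] theorem coe_rotG196 (θ : ℝ) :
    ((rotG196 θ : GL (Fin 2) ℝ) : Matrix (Fin 2) (Fin 2) ℝ) = rotR196 θ := rfl

@[simp] theorem coe_torG196 (t : ℝ) :
    ((torG196 t : GL (Fin 2) ℝ) : Matrix (Fin 2) (Fin 2) ℝ) = torR196 t := rfl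

theorem rotG196_add (a b : ℝ) : rotG196 (a + b) = rotG196 a * rotG196 b :=
  Units.ext (by simp [rotR196_add])

theorem rotG196_zero : rotG196 0 = 1 :=
  Units.ext (by simp [rotR196_zero])

theorem rotG196_inv (a : ℝ) : (rotG196 a)⁻¹ = rotG196 (-a) := by
  rw [inv_eq_iff_eq_inv, eq_inv_iff_mul_eq_one, ← rotG196_add]
  simp [rotG196_zero]

/-- `rotG196 (2π) = -1` is central. -/
theorem rotG196_two_pi_mul (x : GL (Fin 2) ℝ) :
    rotG196 (2 * Real.pi) * x = x * rotG196 (2 * Real.pi) :=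
  Units.ext (by simp [rotR196_two_pi])

theorem continuous_rotR196 : Continuous rotR196 := by
  refine continuous_matrix fun i j => ?_
  fin_cases i <;> fin_cases j <;> simp [rotR196] <;> fun_prop

theorem continuous_rotG196 : Continuous rotG196 := by
  rw [Units.continuous_iff]
  refine ⟨continuous_rotR196, ?_⟩
  have h : (fun a : ℝ => (((rotG196 a)⁻¹ : GL (Fin 2) ℝ) : Matrix (Fin 2) (Fin 2) ℝ))
      = fun a => rotR196 (-a) := by
    funext a
    rw [rotG196_inv]
    rfl
  show Continuous fun a : ℝ => (((rotG196 a)⁻¹ : GL (Fin 2) ℝ) : Matrix (Fin 2) (Fin 2) ℝ)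
  rw [h]
  exact continuous_rotR196.comp continuous_neg


/-- `e = diag(1, -1)`. -/
def eR196 : Matrix (Fin 2) (Fin 2) ℝ := !![1, 0; 0, -1]

/-- The anti-involution `θ(x) = e xᵀ e`. -/
def thetaR196 (x : Matrix (Fin 2) (Fin 2) ℝ) : Matrix (Fin 2) (Fin 2) ℝ :=
  eR196 * x.transpose * eR196

theorem thetaR196_apply (x : Matrix (Fin 2) (Fin 2) ℝ) :
    thetaR196 x = !![x 0 0, -x 1 0; -x 0 1, x 1 1] := by
  unfold thetaR196 eR196
  rw [Matrix.eta_fin_two x.transpose]
  simp only [Matrix.transpose_apply, Matrix.mul_fin_two]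
  ext i j
  fin_cases i <;> fin_cases j <;> simp

theorem thetaR196_mul (x y : Matrix (Fin 2) (Fin 2) ℝ) :
    thetaR196 (x * y) = thetaR196 y * thetaR196 x := by
  have he : eR196 * eR196 = 1 := by
    ext i j
    fin_cases i <;> fin_cases j <;> simp [eR196, Matrix.mul_apply, Fin.sum_univ_two]
  unfold thetaR196
  rw [Matrix.transpose_mul]
  calc eR196 * (y.transpose * x.transpose) * eR196
      = eR196 * y.transpose * 1 * x.transpose * eR196 := by simp only [mul_one, mul_assoc]
    _ = eR196 * y.transpose * (eR196 * eR196) * x.transpose * eR196 := by rw [he]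
    _ = eR196 * y.transpose * eR196 * (eR196 * x.transpose * eR196) := by
        simp only [mul_assoc]

theorem thetaR196_rot (θ : ℝ) : thetaR196 (rotR196 θ) = rotR196 θ := by
  rw [thetaR196_apply]
  ext i j
  fin_cases i <;> fin_cases j <;> simp [rotR196]

theorem thetaR196_tor (t : ℝ) : thetaR196 (torR196 t) = torR196 t := by
  rw [thetaR196_apply]
  ext i j
  fin_cases i <;> fin_cases j <;> simp [torR196]

/-- For every real `2 × 2` matrix `x` there is a rotation `κ` with `θ(x) κ = κ x`: the Cartan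
decomposition in the form needed for Gelfand's trick with a type. -/
theorem exists_rot_theta196 (x : Matrix (Fin 2) (Fin 2) ℝ) :
    ∃ c : ℝ, thetaR196 x * rotR196 c = rotR196 c * x := by
  -- `p (b + c) = q (d - a)` and `p² + q² = 1`
  obtain ⟨p, q, h1, h2⟩ : ∃ p q : ℝ, p * (x 0 1 + x 1 0) = q * (x 1 1 - x 0 0) ∧
      p ^ 2 + q ^ 2 = 1 := by
    by_cases h : (x 1 1 - x 0 0) ^ 2 + (x 0 1 + x 1 0) ^ 2 = 0
    · refine ⟨1, 0, ?_, by norm_num⟩
      have h0 : x 0 1 + x 1 0 = 0 := by
        nlinarith [sq_nonneg (x 1 1 - x 0 0), sq_nonneg (x 0 1 + x 1 0)]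
      rw [h0]; ring
    · set r := Real.sqrt ((x 1 1 - x 0 0) ^ 2 + (x 0 1 + x 1 0) ^ 2) with hr
      have hpos : 0 < (x 1 1 - x 0 0) ^ 2 + (x 0 1 + x 1 0) ^ 2 :=
        lt_of_le_of_ne (by positivity) (Ne.symm h)
      have hr0 : 0 < r := Real.sqrt_pos.2 hpos
      have hr2 : r ^ 2 = (x 1 1 - x 0 0) ^ 2 + (x 0 1 + x 1 0) ^ 2 := Real.sq_sqrt hpos.le
      refine ⟨(x 1 1 - x 0 0) / r, (x 0 1 + x 1 0) / r, by ring, ?_⟩
      rw [div_pow, div_pow, ← add_div, ← hr2, div_self (pow_ne_zero 2 hr0.ne')]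
  -- the angle
  obtain ⟨c, hc1, hc2⟩ : ∃ c : ℝ, Real.cos (c / 2) = p ∧ Real.sin (c / 2) = q := by
    set z : ℂ := ⟨p, q⟩ with hz
    have hnorm : ‖z‖ = 1 := by
      have : ‖z‖ ^ 2 = 1 := by
        rw [Complex.sq_norm, Complex.normSq_apply]
        simp only [hz]
        nlinarith [h2]
      have h0 : 0 ≤ ‖z‖ := norm_nonneg z
      nlinarith [this, h0]
    have hz0 : z ≠ 0 := by
      intro h
      rw [h, norm_zero] at hnorm
      exact zero_ne_one hnorm
    refine ⟨2 * Complex.arg z, ?_, ?_⟩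
    · rw [mul_div_cancel_left₀ _ (two_ne_zero' ℝ), Complex.cos_arg hz0, hnorm, div_one]
    · rw [mul_div_cancel_left₀ _ (two_ne_zero' ℝ), Complex.sin_arg, hnorm, div_one]
  refine ⟨c, ?_⟩
  rw [thetaR196_apply]
  ext i j
  fin_cases i <;> fin_cases j
  · simp only [rotR196, hc1, hc2, Matrix.mul_apply, Fin.sum_univ_two,
      Fin.zero_eta, Fin.isValue, Matrix.of_apply, Matrix.cons_val', Matrix.cons_val_zero,
      Matrix.cons_val_one, Matrix.cons_val_fin_one]
    ring
  · simp only [rotR196, hc1, hc2, Matrix.mul_apply, Fin.sum_univ_two,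
      Fin.zero_eta, Fin.mk_one, Fin.isValue, Matrix.of_apply, Matrix.cons_val', Matrix.cons_val_zero,
      Matrix.cons_val_one, Matrix.cons_val_fin_one]
    linear_combination (-1 : ℝ) * h1
  · simp only [rotR196, hc1, hc2, Matrix.mul_apply, Fin.sum_univ_two,
      Fin.zero_eta, Fin.mk_one, Fin.isValue, Matrix.of_apply, Matrix.cons_val', Matrix.cons_val_zero,
      Matrix.cons_val_one, Matrix.cons_val_fin_one]
    linear_combination (-1 : ℝ) * h1
  · simp only [rotR196, hc1, hc2, Matrix.mul_apply, Fin.sum_univ_two,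
      Fin.mk_one, Fin.isValue, Matrix.of_apply, Matrix.cons_val', Matrix.cons_val_zero,
      Matrix.cons_val_one, Matrix.cons_val_fin_one]
    ring

/-- Fubini for a continuous function on a rectangle, interval-integral form. -/
theorem intervalIntegral_swap196 {E : Type*} [NormedAddCommGroup E] [NormedSpace ℝ E]
    (f : ℝ → ℝ → E) (hf : Continuous (Function.uncurry f)) {a b c d : ℝ}
    (hab : a ≤ b) (hcd : c ≤ d) :
    (∫ x in a..b, ∫ y in c..d, f x y) = ∫ y in c..d, ∫ x in a..b, f x y := by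
  simp only [intervalIntegral.integral_of_le hab, intervalIntegral.integral_of_le hcd]
  apply MeasureTheory.integral_integral_swap
  rw [Measure.prod_restrict]
  have hK : IsCompact (Icc a b ×ˢ Icc c d) := isCompact_Icc.prod isCompact_Icc
  have h1 : IntegrableOn (Function.uncurry f) (Icc a b ×ˢ Icc c d) (volume.prod volume) :=
    hf.continuousOn.integrableOn_compact hK
  exact h1.mono_set (prod_mono Ioc_subset_Icc_self Ioc_subset_Icc_self)



/-! ## 2. Gelfand's trick on `GL₂(ℝ)` with a type -/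

section Real

/-- A continuous non-vanishing character of `ℝ`. -/
structure IsChar196 (χ : ℝ → ℂ) : Prop where
  add : ∀ a b : ℝ, χ (a + b) = χ a * χ b
  ne : ∀ a : ℝ, χ a ≠ 0
  cont : Continuous χ

variable (χ : ℝ → ℂ) (ψ : GL (Fin 2) ℝ → ℂ)

/-- The `χ`-twisted left average of `ψ` over the rotations. -/
def avgT196 (x : GL (Fin 2) ℝ) : ℂ :=
  ∫ a in (0 : ℝ)..(2 * Real.pi), (χ a)⁻¹ * ψ (rotG196 a * x)

variable {χ ψ}

theorem IsChar196.zero (hχ : IsChar196 χ) : χ 0 = 1 := by
  have h := hχ.add 0 0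
  rw [add_zero] at h
  have h0 := hχ.ne 0
  have h1 : 1 * χ 0 = χ 0 * χ 0 := by rw [one_mul]; exact h
  exact (mul_right_cancel₀ h0 h1).symm

theorem IsChar196.neg (hχ : IsChar196 χ) (a : ℝ) : χ (-a) = (χ a)⁻¹ := by
  have h := hχ.add a (-a)
  rw [add_neg_cancel, hχ.zero] at h
  exact eq_inv_of_mul_eq_one_right h.symm

theorem periodicT196 (hχ : IsChar196 χ)
    (hinv : ∀ (m : GL (Fin 2) ℝ) (c : ℝ), ψ (m * rotG196 c) = χ c * ψ m)
    (x y : GL (Fin 2) ℝ) :
    Function.Periodic (fun a : ℝ => (χ a)⁻¹ * ψ (x * (rotG196 a * y))) (2 * Real.pi) := by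
  intro a
  show (χ (a + 2 * Real.pi))⁻¹ * ψ (x * (rotG196 (a + 2 * Real.pi) * y))
    = (χ a)⁻¹ * ψ (x * (rotG196 a * y))
  have h : x * (rotG196 (a + 2 * Real.pi) * y)
      = x * (rotG196 a * y) * rotG196 (2 * Real.pi) := by
    rw [rotG196_add, mul_assoc (rotG196 a), rotG196_two_pi_mul y]
    simp only [mul_assoc]
  rw [h, hinv, hχ.add, mul_inv]
  have h1 := hχ.ne (2 * Real.pi)
  have h2 := hχ.ne a
  field_simp

theorem avgT196_rot_mul (hχ : IsChar196 χ)
    (hinv : ∀ (m : GL (Fin 2) ℝ) (c : ℝ), ψ (m * rotG196 c) = χ c * ψ m)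
    (c : ℝ) (x : GL (Fin 2) ℝ) : avgT196 χ ψ (rotG196 c * x) = χ c * avgT196 χ ψ x := by
  unfold avgT196
  have h1 : ∀ a : ℝ, (χ a)⁻¹ * ψ (rotG196 a * (rotG196 c * x))
      = χ c * ((χ (a + c))⁻¹ * ψ (1 * (rotG196 (a + c) * x))) := by
    intro a
    rw [rotG196_add, one_mul, mul_assoc, hχ.add, mul_inv]
    have h1 := hχ.ne c
    have h2 := hχ.ne a
    field_simp
  simp only [h1]
  rw [intervalIntegral.integral_const_mul]
  congr 1
  rw [intervalIntegral.integral_comp_add_right (fun a => (χ a)⁻¹ * ψ (1 * (rotG196 a * x))) c]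
  have hp := periodicT196 hχ hinv 1 x
  have := hp.intervalIntegral_add_eq (0 + c) 0
  simp only [zero_add] at this ⊢
  rw [add_comm (2 * Real.pi) c, this]
  simp only [one_mul]

theorem avgT196_mul_rot
    (hinv : ∀ (m : GL (Fin 2) ℝ) (c : ℝ), ψ (m * rotG196 c) = χ c * ψ m)
    (c : ℝ) (x : GL (Fin 2) ℝ) : avgT196 χ ψ (x * rotG196 c) = χ c * avgT196 χ ψ x := by
  unfold avgT196
  rw [← intervalIntegral.integral_const_mul]
  congr 1
  funext a
  rw [← mul_assoc (rotG196 a), hinv]
  ring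

/-- The twisted average is invariant under the anti-involution `θ`. -/
theorem avgT196_theta (hχ : IsChar196 χ)
    (hinv : ∀ (m : GL (Fin 2) ℝ) (c : ℝ), ψ (m * rotG196 c) = χ c * ψ m)
    (x y : GL (Fin 2) ℝ)
    (hxy : (y : Matrix (Fin 2) (Fin 2) ℝ) = thetaR196 (x : Matrix (Fin 2) (Fin 2) ℝ)) :
    avgT196 χ ψ y = avgT196 χ ψ x := by
  obtain ⟨c, hc⟩ := exists_rot_theta196 (x : Matrix (Fin 2) (Fin 2) ℝ)
  have h1 : y * rotG196 c = rotG196 c * x := by
    apply Units.ext
    rw [Units.val_mul, Units.val_mul, hxy, coe_rotG196]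
    exact hc
  have hy : y = rotG196 c * (x * rotG196 (-c)) := by
    calc y = y * rotG196 c * (rotG196 c)⁻¹ := by group
      _ = rotG196 c * x * (rotG196 c)⁻¹ := by rw [h1]
      _ = rotG196 c * (x * rotG196 (-c)) := by rw [rotG196_inv, mul_assoc]
  rw [hy, avgT196_rot_mul hχ hinv, avgT196_mul_rot hinv, hχ.neg, ← mul_assoc,
    mul_inv_cancel₀ (hχ.ne c), one_mul]

/-- **Gelfand's trick for `(GL₂(ℝ), SO(2))` with a type**: the two iterated twisted circle means
of a continuous function of right type `χ` agree. -/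
theorem circle_comm_realT196 (hχ : IsChar196 χ) (hc : Continuous ψ)
    (hinv : ∀ (m : GL (Fin 2) ℝ) (c : ℝ), ψ (m * rotG196 c) = χ c * ψ m)
    (A A' : GL (Fin 2) ℝ)
    (hA : thetaR196 (A : Matrix (Fin 2) (Fin 2) ℝ) = (A : Matrix (Fin 2) (Fin 2) ℝ))
    (hA' : thetaR196 (A' : Matrix (Fin 2) (Fin 2) ℝ) = (A' : Matrix (Fin 2) (Fin 2) ℝ)) :
    (∫ θ in (0 : ℝ)..(2 * Real.pi), (χ θ)⁻¹ * ∫ θ' in (0 : ℝ)..(2 * Real.pi),
        (χ θ')⁻¹ * ψ (rotG196 θ * A * (rotG196 θ' * A')))
      = ∫ θ' in (0 : ℝ)..(2 * Real.pi), (χ θ')⁻¹ * ∫ θ in (0 : ℝ)..(2 * Real.pi),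
        (χ θ)⁻¹ * ψ (rotG196 θ' * A' * (rotG196 θ * A)) := by
  have h2pi : (0 : ℝ) ≤ 2 * Real.pi := by positivity
  have hχi : Continuous fun a : ℝ => (χ a)⁻¹ := hχ.cont.inv₀ hχ.ne
  have hcont : ∀ B B' : GL (Fin 2) ℝ, Continuous (Function.uncurry
      (fun θ θ' : ℝ => (χ θ)⁻¹ * ((χ θ')⁻¹ * ψ (rotG196 θ * B * (rotG196 θ' * B'))))) := by
    intro B B'
    have h1 : Continuous fun p : ℝ × ℝ => rotG196 p.1 := continuous_rotG196.comp continuous_fst
    have h2 : Continuous fun p : ℝ × ℝ => rotG196 p.2 := continuous_rotG196.comp continuous_snd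
    have h3 : Continuous fun p : ℝ × ℝ => ψ (rotG196 p.1 * B * (rotG196 p.2 * B')) :=
      hc.comp ((h1.mul continuous_const).mul (h2.mul continuous_const))
    exact (hχi.comp continuous_fst).mul ((hχi.comp continuous_snd).mul h3)
  -- left side
  have hL : (∫ θ in (0 : ℝ)..(2 * Real.pi), (χ θ)⁻¹ * ∫ θ' in (0 : ℝ)..(2 * Real.pi),
        (χ θ')⁻¹ * ψ (rotG196 θ * A * (rotG196 θ' * A')))
      = ∫ θ' in (0 : ℝ)..(2 * Real.pi), (χ θ')⁻¹ * avgT196 χ ψ (A * (rotG196 θ' * A')) := by
    simp only [← intervalIntegral.integral_const_mul]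
    rw [intervalIntegral_swap196 _ (hcont A A') h2pi h2pi]
    congr 1
    funext θ'
    unfold avgT196
    rw [← intervalIntegral.integral_const_mul]
    congr 1
    funext θ
    rw [mul_assoc (rotG196 θ)]
    ring
  -- right side
  have hR : (∫ θ' in (0 : ℝ)..(2 * Real.pi), (χ θ')⁻¹ * ∫ θ in (0 : ℝ)..(2 * Real.pi),
        (χ θ)⁻¹ * ψ (rotG196 θ' * A' * (rotG196 θ * A)))
      = ∫ θ in (0 : ℝ)..(2 * Real.pi), (χ θ)⁻¹ * avgT196 χ ψ (A' * (rotG196 θ * A)) := by
    simp only [← intervalIntegral.integral_const_mul]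
    rw [intervalIntegral_swap196 _ (hcont A' A) h2pi h2pi]
    congr 1
    funext θ
    unfold avgT196
    rw [← intervalIntegral.integral_const_mul]
    congr 1
    funext θ'
    rw [mul_assoc (rotG196 θ')]
    ring
  rw [hL, hR]
  -- the anti-involution
  have hT : ∀ θ : ℝ, avgT196 χ ψ (A' * (rotG196 θ * A)) = avgT196 χ ψ (A * (rotG196 θ * A')) := by
    intro θ
    refine avgT196_theta hχ hinv _ _ ?_
    simp only [Matrix.GeneralLinearGroup.coe_mul, coe_rotG196, thetaR196_mul, hA, hA',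
      thetaR196_rot, mul_assoc]
  simp only [hT]

end Real


/-! ## 3. The adelic statement -/

section Adelic

open Fermat.Agent.LT.H556.A0 Fermat.Agent.LT.T2 Fermat.Agent.LT.T2.H291 Fermat.Agent.LT.T8.H864

variable {K : Type} [Field K] [NumberField K]

/-- Two elements supported at the same infinite place with the same complex matrix are equal. -/
theorem eq_of_local196 {w : InfinitePlace K} {g g' : G K} (hg : IsLocalAtInf w g)
    (hg' : IsLocalAtInf w g') (h : infComp w g = infComp w g') : g = g' := by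
  refine G_ext (fun w' => ?_) (fun v => ?_)
  · by_cases hw : w' = w
    · subst hw
      apply Units.ext
      rw [coe_infCompHom, coe_infCompHom]
      rw [infComp_eq_map, infComp_eq_map] at h
      exact Matrix.map_injective (InfinitePlace.Completion.extensionEmbedding w').injective h
    · rw [(trivAtInf_iff_hom w' g).1 (hg.1 w' hw), (trivAtInf_iff_hom w' g').1 (hg'.1 w' hw)]
  · rw [(trivAtFin_iff_hom v g).1 (hg.2 v), (trivAtFin_iff_hom v g').1 (hg'.2 v)]

theorem rotY_eq196 (θ : ℝ) : rotY θ = (rotR196 θ).map (fun r : ℝ => (r : ℂ)) := by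
  ext i j
  fin_cases i <;> fin_cases j <;> simp [rotY, rotR196]

theorem torus_eq196 (t : ℝ) : torus t = (torR196 t).map (fun r : ℝ => (r : ℂ)) := by
  ext i j
  fin_cases i <;> fin_cases j <;> simp [torus, torR196]

theorem map_ofReal_mul196 (M N : Matrix (Fin 2) (Fin 2) ℝ) :
    (M * N).map (fun r : ℝ => (r : ℂ))
      = M.map (fun r : ℝ => (r : ℂ)) * N.map (fun r : ℝ => (r : ℂ)) :=
  Matrix.map_mul (f := Complex.ofRealHom)

/-- The rotations of `IsRotAt` are the images of the real rotations. -/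
theorem rot_eq196 {w : InfinitePlace K} (hw : w.IsReal) {k : ℝ → G K} (hk : IsRotAt w k)
    (θ : ℝ) : k θ = locInfReal hw (rotG196 θ) := by
  refine eq_of_local196 (hk θ).1 (isLocalAtInf_locInfReal hw _) ?_
  rw [(hk θ).2, infComp_locInfReal, rotY_eq196]
  rfl

/-- The torus element of `IsTorusAt` is the image of the real torus element. -/
theorem tor_eq196 {w : InfinitePlace K} (hw : w.IsReal) {t : ℝ} {a : G K}
    (ha : IsTorusAt w t a) : a = locInfReal hw (torG196 t) := by
  refine eq_of_local196 ha.1 (isLocalAtInf_locInfReal hw _) ?_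
  rw [ha.2, infComp_locInfReal, torus_eq196]
  rfl

/-- The rotations lie in the compact group at `w`. -/
theorem isArchCompact_rot196 {w : InfinitePlace K} (hw : w.IsReal) (c : ℝ) :
    IsArchCompact w (locInfReal hw (rotG196 c)) := by
  have hmap : infComp w (locInfReal hw (rotG196 c))
      = (rotR196 c).map (fun r : ℝ => (r : ℂ)) := by
    rw [infComp_locInfReal]; rfl
  refine ⟨isLocalAtInf_locInfReal hw _, ?_, fun _ => ?_⟩
  · rw [hmap]
    have h1 : ((rotR196 c).map (fun r : ℝ => (r : ℂ))).conjTranspose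
        = ((rotR196 c).transpose).map (fun r : ℝ => (r : ℂ)) := by
      ext i j
      simp [Matrix.conjTranspose_apply, Matrix.transpose_apply]
    rw [h1, ← map_ofReal_mul196, rotR196_transpose, ← rotR196_add, add_neg_cancel, rotR196_zero]
    ext i j
    fin_cases i <;> fin_cases j <;> simp
  · rw [hmap]
    have h2 : ((rotR196 c).map (fun r : ℝ => (r : ℂ))).det = (((rotR196 c).det : ℝ) : ℂ) := by
      simp only [Matrix.det_fin_two, Matrix.map_apply]
      push_cast
      ring
    rw [h2, rotR196_det]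
    simp

/-- The character of the rotations defined by the type `τ` at the real place `w`. -/
def chi196 {w : InfinitePlace K} (hw : w.IsReal) (τ : G K → ℂ) (c : ℝ) : ℂ :=
  τ (locInfReal hw (rotG196 c))

theorem isChar_chi196 {w : InfinitePlace K} (hw : w.IsReal) {τ : G K → ℂ} (hτ : IsKType τ) :
    IsChar196 (chi196 hw τ) where
  add a b := by
    unfold chi196
    rw [rotG196_add, map_mul]
    exact hτ.mul w _ _ (isArchCompact_rot196 hw a) (isArchCompact_rot196 hw b)
  ne a := by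
    intro h
    have h1 := hτ.norm_one w _ (isArchCompact_rot196 hw a)
    unfold chi196 at h
    rw [h, norm_zero] at h1
    exact zero_ne_one h1
  cont := by
    unfold chi196
    have h1 : Continuous fun c : ℝ => locInfReal hw (rotG196 c) :=
      (continuous_locInfReal hw).comp continuous_rotG196
    exact (hτ.cont w).comp_continuous h1 (fun c => isArchCompact_rot196 hw c)

variable {𝔫 : Ideal (𝓞 K)} {τ : G K → ℂ} {r : G K} {φ : G K → ℂ}

/-- The pull-back of a cusp function to `GL₂(ℝ)` at the real place `w`. -/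
def pull196 {w : InfinitePlace K} (hw : w.IsReal) (φ : G K → ℂ) (g : G K) :
    GL (Fin 2) ℝ → ℂ := fun m => φ (g * locInfReal hw m)

theorem continuous_pull196 {w : InfinitePlace K} (hw : w.IsReal) (hφ : Continuous φ) (g : G K) :
    Continuous (pull196 hw φ g) :=
  hφ.comp (continuous_const.mul (continuous_locInfReal hw))

theorem pull196_inv {w : InfinitePlace K} (hw : w.IsReal) (hφ : IsCuspT 𝔫 τ r φ) (g : G K)
    (m : GL (Fin 2) ℝ) (c : ℝ) :
    pull196 hw φ g (m * rotG196 c) = chi196 hw τ c * pull196 hw φ g m := by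
  unfold pull196 chi196
  rw [map_mul, ← mul_assoc]
  exact hφ.aut.arch_compact w _ (isArchCompact_rot196 hw c) _

/-- Same place. -/
theorem circle_comm_sameT196 {w : InfinitePlace K} (hw : w.IsReal) (hτ : IsKType τ)
    (hφ : IsCuspT 𝔫 τ r φ) {t t' : ℝ} {k k' : ℝ → G K} {a a' : G K}
    (hk : IsRotAt w k) (ha : IsTorusAt w t a) (hk' : IsRotAt w k') (ha' : IsTorusAt w t' a')
    (g : G K) :
    circleMeanT τ k a (circleMeanT τ k' a' φ) g = circleMeanT τ k' a' (circleMeanT τ k a φ) g := by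
  have e1 : ∀ θ : ℝ, τ (k θ) = chi196 hw τ θ := fun θ => by rw [rot_eq196 hw hk θ]; rfl
  have e2 : ∀ θ : ℝ, τ (k' θ) = chi196 hw τ θ := fun θ => by rw [rot_eq196 hw hk' θ]; rfl
  have h1 : ∀ θ θ' : ℝ, φ (g * k θ * a * k' θ' * a')
      = pull196 hw φ g (rotG196 θ * torG196 t * (rotG196 θ' * torG196 t')) := by
    intro θ θ'
    unfold pull196
    rw [rot_eq196 hw hk θ, rot_eq196 hw hk' θ', tor_eq196 hw ha, tor_eq196 hw ha']
    simp only [map_mul, mul_assoc]
  have h2 : ∀ θ θ' : ℝ, φ (g * k' θ' * a' * k θ * a)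
      = pull196 hw φ g (rotG196 θ' * torG196 t' * (rotG196 θ * torG196 t)) := by
    intro θ θ'
    unfold pull196
    rw [rot_eq196 hw hk θ, rot_eq196 hw hk' θ', tor_eq196 hw ha, tor_eq196 hw ha']
    simp only [map_mul, mul_assoc]
  show (∫ θ in (0 : ℝ)..(2 * Real.pi), (τ (k θ))⁻¹ * ∫ θ' in (0 : ℝ)..(2 * Real.pi),
      (τ (k' θ'))⁻¹ * φ (g * k θ * a * k' θ' * a'))
    = ∫ θ' in (0 : ℝ)..(2 * Real.pi), (τ (k' θ'))⁻¹ * ∫ θ in (0 : ℝ)..(2 * Real.pi),
      (τ (k θ))⁻¹ * φ (g * k' θ' * a' * k θ * a)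
  simp only [h1, h2, e1, e2]
  exact circle_comm_realT196 (isChar_chi196 hw hτ) (continuous_pull196 hw hφ.aut.cont g)
    (pull196_inv hw hφ g) (torG196 t) (torG196 t') (thetaR196_tor t) (thetaR196_tor t')

/-- Elements supported at two different infinite places commute. -/
theorem commute_of_local196 {w w' : InfinitePlace K} (h : w' ≠ w) {y y' : G K}
    (hy : IsLocalAtInf w y) (hy' : IsLocalAtInf w' y') : y * y' = y' * y := by
  refine commute_of_triv (fun w'' => ?_) (fun v => Or.inl ((trivAtFin_iff_hom v y).1 (hy.2 v)))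
  by_cases h' : w'' = w
  · subst h'
    exact Or.inr ((trivAtInf_iff_hom w'' y').1 (hy'.1 w'' (Ne.symm h)))
  · exact Or.inl ((trivAtInf_iff_hom w'' y).1 (hy.1 w'' h'))

/-- Different places. -/
theorem circle_comm_diffT196 {w w' : InfinitePlace K} (hw : w.IsReal) (hw' : w'.IsReal)
    (h : w' ≠ w) (hτ : IsKType τ) (hφ : IsCuspT 𝔫 τ r φ) {t t' : ℝ} {k k' : ℝ → G K}
    {a a' : G K} (hk : IsRotAt w k) (ha : IsTorusAt w t a) (hk' : IsRotAt w' k')
    (ha' : IsTorusAt w' t' a') (g : G K) :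
    circleMeanT τ k a (circleMeanT τ k' a' φ) g = circleMeanT τ k' a' (circleMeanT τ k a φ) g := by
  have h2pi : (0 : ℝ) ≤ 2 * Real.pi := by positivity
  have e1 : ∀ θ : ℝ, τ (k θ) = chi196 hw τ θ := fun θ => by rw [rot_eq196 hw hk θ]; rfl
  have e2 : ∀ θ : ℝ, τ (k' θ) = chi196 hw' τ θ := fun θ => by rw [rot_eq196 hw' hk' θ]; rfl
  have hY : ∀ θ : ℝ, k θ * a = locInfReal hw (rotG196 θ * torG196 t) := fun θ => by
    rw [rot_eq196 hw hk θ, tor_eq196 hw ha, map_mul]
  have hY' : ∀ θ : ℝ, k' θ * a' = locInfReal hw' (rotG196 θ * torG196 t') := fun θ => by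
    rw [rot_eq196 hw' hk' θ, tor_eq196 hw' ha', map_mul]
  have hcomm : ∀ θ θ' : ℝ, g * k' θ' * a' * k θ * a
      = g * locInfReal hw (rotG196 θ * torG196 t) * locInfReal hw' (rotG196 θ' * torG196 t') := by
    intro θ θ'
    calc g * k' θ' * a' * k θ * a = g * ((k' θ' * a') * (k θ * a)) := by simp only [mul_assoc]
      _ = g * ((k θ * a) * (k' θ' * a')) := by
          rw [hY, hY', commute_of_local196 h (isLocalAtInf_locInfReal hw _)
            (isLocalAtInf_locInfReal hw' _)]
      _ = _ := by rw [hY, hY', mul_assoc]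
  have hcomm' : ∀ θ θ' : ℝ, g * k θ * a * k' θ' * a'
      = g * locInfReal hw (rotG196 θ * torG196 t) * locInfReal hw' (rotG196 θ' * torG196 t') := by
    intro θ θ'
    calc g * k θ * a * k' θ' * a' = g * (k θ * a) * (k' θ' * a') := by simp only [mul_assoc]
      _ = _ := by rw [hY, hY']
  have hχ := isChar_chi196 hw hτ
  have hχ' := isChar_chi196 hw' hτ
  have hχi : Continuous fun a : ℝ => (chi196 hw τ a)⁻¹ := hχ.cont.inv₀ hχ.ne
  have hχi' : Continuous fun a : ℝ => (chi196 hw' τ a)⁻¹ := hχ'.cont.inv₀ hχ'.ne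
  have hcont : Continuous (Function.uncurry (fun θ θ' : ℝ =>
      (chi196 hw τ θ)⁻¹ * ((chi196 hw' τ θ')⁻¹ * φ (g * locInfReal hw (rotG196 θ * torG196 t)
        * locInfReal hw' (rotG196 θ' * torG196 t'))))) := by
    have h1 : Continuous fun p : ℝ × ℝ => locInfReal hw (rotG196 p.1 * torG196 t) :=
      (continuous_locInfReal hw).comp ((continuous_rotG196.comp continuous_fst).mul
        continuous_const)
    have h2 : Continuous fun p : ℝ × ℝ => locInfReal hw' (rotG196 p.2 * torG196 t') :=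
      (continuous_locInfReal hw').comp ((continuous_rotG196.comp continuous_snd).mul
        continuous_const)
    have h3 : Continuous fun p : ℝ × ℝ => φ (g * locInfReal hw (rotG196 p.1 * torG196 t)
        * locInfReal hw' (rotG196 p.2 * torG196 t')) :=
      hφ.aut.cont.comp ((continuous_const.mul h1).mul h2)
    exact (hχi.comp continuous_fst).mul ((hχi'.comp continuous_snd).mul h3)
  show (∫ θ in (0 : ℝ)..(2 * Real.pi), (τ (k θ))⁻¹ * ∫ θ' in (0 : ℝ)..(2 * Real.pi),
      (τ (k' θ'))⁻¹ * φ (g * k θ * a * k' θ' * a'))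
    = ∫ θ' in (0 : ℝ)..(2 * Real.pi), (τ (k' θ'))⁻¹ * ∫ θ in (0 : ℝ)..(2 * Real.pi),
      (τ (k θ))⁻¹ * φ (g * k' θ' * a' * k θ * a)
  simp only [hcomm, hcomm', e1, e2, ← intervalIntegral.integral_const_mul]
  rw [intervalIntegral_swap196 _ hcont h2pi h2pi]
  congr 1
  funext θ'
  congr 1
  funext θ
  ring

/-- **T2.27.20**: two `τ`-twisted circle means commute on the cusp functions of the class.
UNCONDITIONAL (of the standing hypotheses only `IsKType τ` is used). -/
theorem subCommCircleCircleT196 (K : Type) [Field K] [NumberField K] :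
    SubCommCircleCircleT291 K := by
  intro 𝔫 τ ctx R w hw t _ k a hk ha w' hw' t' _ k' a' hk' ha' φ hφ
  funext g
  by_cases h : w' = w
  · subst h
    exact circle_comm_sameT196 hw ctx.kt hφ hk ha hk' ha' g
  · exact circle_comm_diffT196 hw hw' h ctx.kt hφ hk ha hk' ha' g

end Adelic

end Fermat.Agent.LT.T2.H196

end
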